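import Fermat.Agent.MazurPrinciple.General.EllipticHecke
import Fermat.Agent.MazurPrinciple.PThree.Cusps
import Fermat.Agent.MazurPrinciple.AwayThree.Descent
import Fermat.Agent.MazurPrinciple.ResidualDescend

/-!
# Orders divisible by three descend, for an irreducible residual system

Only the elliptic points of order three obstruct the descent; there the Hecke operator at `l` acts
as `l + 1`, so an eigenvalue different from `l + 1` suffices.
-/

set_option autoImplicit false
set_option linter.style.haveILetI false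
set_option maxHeartbeats 800000

noncomputable section

open AlgebraicCurve IntermediateField IsLocalRing
open FermatAgent.Curve FermatAgent.JacCharts FermatAgent.ModFun FermatAgent.BadRed.Semistable
open FermatAgent.BadRed.Carayol.Instance
open FermatAgent.Mazur.Step3 (corrNorm heckeDiv)
open ModularCurve (modularFunctionFieldFullC modularFunctionFieldBar)

namespace FermatAgent.MazurPrinciple.General

local notation "Qb" => AlgebraicClosure ℚ

section General

open FermatAgent.Curve.RR

variable {K : Type*} [Field K] {B : ValuationSubring K} {k : Type*} [Field k] {π : B →+* k}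
  {F : Type*} [Field F] [Algebra K F] {Fb : Type*} [Field Fb] [Algebra k Fb]
  [RRSetting K F] [RRSetting k Fb] {d : GoodReductionDatum B π F Fb} [Nonempty (Place K F)]

/-- An operator is congruent to a scalar on reduced divisors supported where its images are. -/
theorem dvd_redDiv_Td_sub (T : PairedOperator d) (n c : ℤ) {D : Divisor K F}
    (hD : ∀ Q', n ∣ d.redDiv D Q' ∨ ∃ P, d.place P = Q' ∧
      ∀ R, n ∣ T.Td (Finsupp.single P 1) R - c * Finsupp.single P (1 : ℤ) R)
    (Q' : Place k Fb) : n ∣ d.redDiv (T.Td D) Q' - c * d.redDiv D Q' := by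
  classical
  set T' : Divisor K F →+ Divisor K F := T.Td - c • AddMonoidHom.id (Divisor K F) with hT'
  have hT'a : ∀ E, T' E = T.Td E - c • E := fun E => rfl
  obtain ⟨s, hs⟩ := (place_surjective d).hasRightInverse
  have hcongr : ∀ v P, d.place P = v →
      d.redDiv (T' (Finsupp.single (s v) 1)) = d.redDiv (T' (Finsupp.single P 1)) := fun v P h => by
    rw [hT'a, hT'a, map_sub, map_sub, map_zsmul, map_zsmul,
      T.redDiv_single_congr ((hs v).trans h.symm)]
    congr 2
    show Finsupp.mapDomain _ (Finsupp.single _ _) = Finsupp.mapDomain _ (Finsupp.single _ _)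
    rw [Finsupp.mapDomain_single, Finsupp.mapDomain_single, hs v, h]
  have hrep : d.redDiv (T' D) =
      (d.redDiv D).sum fun v m => m • d.redDiv (T' (Finsupp.single (s v) 1)) := by
    have key : d.redDiv.comp T' = (Finsupp.liftAddHom fun v =>
        zmultiplesHom _ (d.redDiv (T' (Finsupp.single (s v) 1)))).comp d.redDiv := by
      refine Finsupp.addHom_ext fun P m => ?_
      show d.redDiv (T' (Finsupp.single P m)) = _
      rw [AddMonoidHom.comp_apply, ← Finsupp.smul_single_one, map_zsmul, map_zsmul, map_zsmul,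
        map_zsmul, ← hcongr (d.place P) P rfl]
      congr 1
      rw [show d.redDiv (Finsupp.single P (1 : ℤ)) = Finsupp.single (d.place P) 1 from
        Finsupp.mapDomain_single, Finsupp.liftAddHom_apply_single]
      simp
    exact DFunLike.congr_fun key D
  have e : d.redDiv (T.Td D) Q' - c * d.redDiv D Q' = d.redDiv (T' D) Q' := by
    rw [hT'a, map_sub, map_zsmul, Finsupp.sub_apply, Finsupp.smul_apply, smul_eq_mul]
  rw [e, hrep, Finsupp.sum, Finsupp.finsetSum_apply]
  refine Finset.dvd_sum fun v _ => ?_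
  rw [Finsupp.smul_apply, smul_eq_mul]
  rcases hD v with hv | ⟨P, hP, hPT⟩
  · exact hv.mul_right _
  · rw [hcongr v P hP]
    exact (AwayThree.dvd_map_of_dvd d.redDiv (fun R => by
      rw [hT'a, Finsupp.sub_apply, Finsupp.smul_apply, smul_eq_mul]
      exact hPT R) Q').mul_left _

end General

variable {A : ValuationSubring Qb} {q : ℕ} [Fact q.Prime] (hA : A.LiesOverPrime q)
  {M N l : ℕ} [NeZero M] [NeZero N] [NeZero l]

include hA in
/-- Orders divisible by three descend when the eigenvalue at `l` is not `l + 1` modulo three. -/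
theorem dvd_ord_of_bound (hqM : ¬ q ∣ M) (hMN : M ∣ N)
    [IsAlgClosed (ResidueField A)]
    [IsFunctionField1 (ResidueField A) (modularFunctionFieldFullC (ResidueField A) M)]
    [IsFunctionField1 (ResidueField A) (modularFunctionFieldFullC (ResidueField A) N)]
    (hbound : ∀ (R : Place (ResidueField A) (modularFunctionFieldFullC (ResidueField A) N))
      (c : ResidueField A),
      (c = 0 → 0 < R.ord (jFib (ResidueField A) N) → ¬ (9 : ℤ) ∣ R.ord (jFib (ResidueField A) N)) ∧
      (c ≠ 0 → R.ord (jFib (ResidueField A) N - algebraMap (ResidueField A) _ c) ≤ 2))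
    (hl : l.Prime) (hlM : ¬ l ∣ M) {al : ℤ} (hal : ¬ (3 : ℤ) ∣ al - ((l : ℤ) + 1))
    {φ : modularFunctionFieldFullC (ResidueField A) M} (hφ : φ ≠ 0)
    (hup : ∀ R : Place (ResidueField A) (modularFunctionFieldFullC (ResidueField A) N),
      (3 : ℤ) ∣ R.ord (AwayThree.fibIncl A hMN φ))
    (hcusp : ∀ Q : Place (ResidueField A) (modularFunctionFieldFullC (ResidueField A) M),
      Q.ord (jFib (ResidueField A) M) < 0 → (3 : ℤ) ∣ Q.ord φ)
    (heig : ∃ f h, (Igusa.Down.datum M Fact.out hqM hA).RedsTo f φ ∧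
      (Igusa.Down.datum M Fact.out hqM hA).RedsTo (corrNorm M l f) (φ ^ al * h ^ 3))
    (Q : Place (ResidueField A) (modularFunctionFieldFullC (ResidueField A) M)) :
    (3 : ℤ) ∣ Q.ord φ := by
  classical
  haveI := Igusa.Down.isFunctionField1_bar M
  haveI := Igusa.Down.isFunctionField1_bar N
  set d := Igusa.Down.datum M Fact.out hqM hA
  set T := heckePaired (Igusa.Down.isLaurent_datum (N := M) Fact.out hqM hA) hl hlM
  obtain ⟨f, h, hf, hh⟩ := heig
  obtain ⟨hb, hb0, hb1, -⟩ := T.red f f φ hφ hf hf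
  have e : hb = φ ^ al * h ^ 3 := hb1.unique hh
  have hh0 : h ≠ 0 := fun e0 => hb0 (by rw [e, e0, zero_pow (by norm_num), mul_zero])
  have hf0 := hf.ne_zero hφ
  have key := dvd_redDiv_Td_sub T 3 ((l : ℤ) + 1) (D := divOf (K := Qb) f) (fun Q' => by
    rw [hf.redDiv_divOf hφ, divOf_apply hφ]
    rcases lt_or_ge (Q'.ord (jFib (ResidueField A) M)) 0 with hneg | hnn
    · exact Or.inl (hcusp Q' hneg)
    rcases AwayThree.dvd_ord_or_elliptic hA hqM hMN hbound hup hnn with h' | ⟨P, hPQ, hP, hP3⟩
    · exact Or.inl h'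
    · exact Or.inr ⟨P, hPQ, fun R => three_dvd_heckeDiv_sub hl hlM hP hP3 R⟩) Q
  rw [(T.map_divOf f hf0).2, hb1.redDiv_divOf hb0, hf.redDiv_divOf hφ, divOf_apply hb0,
    divOf_apply hφ, e, Q.ord_mul (zpow_ne_zero _ hφ) (pow_ne_zero _ hh0), Q.ord_zpow,
    Curve.ord_pow'] at key
  have h' : (3 : ℤ) ∣ (al - ((l : ℤ) + 1)) * Q.ord φ := by
    obtain ⟨c, hc⟩ := key
    refine ⟨c - Q.ord h, ?_⟩
    push_cast at hc
    linear_combination hc
  exact ((Int.prime_three.dvd_mul).mp h').resolve_left hal

include hA in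
/-- **Orders divisible by three at the auxiliary level descend.** -/
theorem dvd_ord_of_aux (hqM : ¬ q ∣ M) (hqN : ¬ q ∣ N) (hMN : M ∣ N)
    (haux : (5 ≤ q ∧ (4 ∣ N ∨ 9 ∣ N)) ∨ (q = 2 ∧ 9 ∣ N))
    [IsAlgClosed (ResidueField A)]
    [IsFunctionField1 (ResidueField A) (modularFunctionFieldFullC (ResidueField A) M)]
    [IsFunctionField1 (ResidueField A) (modularFunctionFieldFullC (ResidueField A) N)]
    (hl : l.Prime) (hlM : ¬ l ∣ M) (hl3 : l % 3 = 2) {al : ℤ} (hal : ¬ (3 : ℤ) ∣ al)
    {φ : modularFunctionFieldFullC (ResidueField A) M} (hφ : φ ≠ 0)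
    (hup : ∀ R : Place (ResidueField A) (modularFunctionFieldFullC (ResidueField A) N),
      (3 : ℤ) ∣ R.ord (AwayThree.fibIncl A hMN φ))
    (hcusp : ∀ Q : Place (ResidueField A) (modularFunctionFieldFullC (ResidueField A) M),
      Q.ord (jFib (ResidueField A) M) < 0 → (3 : ℤ) ∣ Q.ord φ)
    (heig : ∃ f h, (Igusa.Down.datum M Fact.out hqM hA).RedsTo f φ ∧
      (Igusa.Down.datum M Fact.out hqM hA).RedsTo (corrNorm M l f) (φ ^ al * h ^ 3))
    (Q : Place (ResidueField A) (modularFunctionFieldFullC (ResidueField A) M)) :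
    (3 : ℤ) ∣ Q.ord φ :=
  haveI := Igusa.Down.isFunctionField1_bar M
  haveI := Igusa.Down.isFunctionField1_bar N
  dvd_ord_of_bound hA hqM hMN (AwayThree.ord_jFib_aux hA hqN haux) hl hlM
    (fun h => hal (by omega)) hφ hup hcusp heig Q

/-- **Orders divisible by three descend from a level divisible by four.** -/
theorem descends_three [h3 : Fact (Nat.Prime 3)] {B : ValuationSubring Qb} (hB : B.LiesOverPrime 3)
    [IsFunctionField1 (ResidueField B) (FibField B N)]
    [IsFunctionField1 (ResidueField B) (FibField B M)]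
    (hd : N ∣ M) (hN : (3 : ℕ).Coprime N)
    (hM : (3 : ℕ).Coprime M) (h4 : 4 ∣ M) {S : Set ℕ} {a : ℕ → ℤ}
    (hl : l.Prime) (hlN : ¬ l ∣ N) (hlS : l ∉ S) (hal : ¬ (3 : ℤ) ∣ a l - ((l : ℤ) + 1)) :
    Descends (p := 3) hB hd hN S a := by
  intro φ hφ hup heig Q
  have := isAlgClosed_residue (A := B)
  have hN3 : ¬ 3 ∣ N := (Nat.Prime.coprime_iff_not_dvd Nat.prime_three).mp hN
  have hM3 : ¬ 3 ∣ M := (Nat.Prime.coprime_iff_not_dvd Nat.prime_three).mp hM
  haveI := Igusa.Down.isFunctionField1_bar M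
  have hincl : ∀ x, AwayThree.fibIncl B hd x = fibBase B hd x := fun x =>
    Subtype.ext ((IntermediateField.coe_inclusion _ _).trans (coe_fibBase hd x).symm)
  refine dvd_ord_of_bound hB hN3 hd (PThree.ord_jFib_bound hB h4 hM3) hl hlN hal hφ
    (fun R => hincl φ ▸ hup R) ?_ (heig l hl hlN hlS) Q
  intro Q hQ
  obtain ⟨R, rfl⟩ := exists_restrictAlong_eq (AwayThree.fibIncl B hd)
    (isIntegralAlong (AwayThree.fibIncl B hd)) Q
  set ι := AwayThree.fibIncl B hd
  have he := R.ord_restrictAlong ι (isIntegralAlong ι) (jFib (ResidueField B) N)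
  rw [AwayThree.fibIncl_jFib] at he
  have hR : R.ord (jFib (ResidueField B) M) < 0 := by
    rw [he]
    exact mul_neg_of_pos_of_neg (by exact_mod_cast ramificationIndexAlong_pos ι R) hQ
  have h3j := PThree.not_three_dvd_ord_jFib hB h4 hM3 hR
  have h := hup R
  rw [← hincl φ, R.ord_restrictAlong ι (isIntegralAlong ι)] at h
  exact ((Int.prime_three.dvd_mul).mp h).resolve_left fun h' => h3j (he ▸ h'.mul_right _)

end FermatAgent.MazurPrinciple.General

end
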