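import Fermat.Agent.ModCurve.Torsion.HeckeNorm
import Fermat.Agent.ModCurve.Torsion.Descend

/-!
# Both degeneracy maps agree at elliptic points of order three

An elliptic point `z` of order three of `X₀(N l)` is fixed by an element of norm `l` of the ring
generated by its stabiliser, so `l z` and `z` are equivalent under `Γ₀(N)`.
-/

set_option autoImplicit false
set_option linter.unusedSectionVars false

noncomputable section

open scoped MatrixGroups
open UpperHalfPlane hiding I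
open CongruenceSubgroup

namespace FermatAgent.MazurPrinciple.General

/-- A small multiple of a linear congruence: `u + v a ≡ 0 mod l` with `u², v² < l`. -/
theorem exists_small_congr {l : ℕ} (hl : l.Prime) (a : ℤ) :
    ∃ u v : ℤ, (l : ℤ) ∣ u + v * a ∧ ¬ (u = 0 ∧ v = 0) ∧ u ^ 2 < l ∧ v ^ 2 < l := by
  classical
  have : NeZero l := ⟨hl.ne_zero⟩
  set k := Nat.sqrt l
  have hk : k * k < l := lt_of_le_of_ne (Nat.sqrt_le l) fun h =>
    hl.prime.not_isSquare ⟨k, h.symm⟩
  obtain ⟨⟨i, j⟩, ⟨i', j'⟩, hne, he⟩ := Fintype.exists_ne_map_eq_of_card_lt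
    (fun x : Fin (k + 1) × Fin (k + 1) => ((x.1 : ℕ) : ZMod l) + ((x.2 : ℕ) : ZMod l) * (a : ZMod l))
    (by
      rw [ZMod.card, Fintype.card_prod, Fintype.card_fin]
      exact Nat.lt_succ_sqrt l)
  refine ⟨(i : ℕ) - (i' : ℕ), (j : ℕ) - (j' : ℕ), ?_, ?_, ?_, ?_⟩
  · rw [← ZMod.intCast_zmod_eq_zero_iff_dvd]
    push_cast
    linear_combination he
  · rintro ⟨h1, h2⟩
    refine hne (Prod.ext (Fin.ext ?_) (Fin.ext ?_)) <;> simp only <;> omega
  all_goals
    have hi := i.isLt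
    have hi' := i'.isLt
    have hj := j.isLt
    have hj' := j'.isLt
    have hk' : (k : ℤ) * k < l := by exact_mod_cast hk
    nlinarith

/-- An element of norm `l` in the kernel of `ℤ[γ] → 𝔽_l`, `γ² - t γ + 1 = 0`, `t = ±1`. -/
theorem exists_norm_eq {l : ℕ} (hl : l.Prime) {a t : ℤ} (ht : t = 1 ∨ t = -1)
    (ha : (l : ℤ) ∣ a * (t - a) - 1) :
    ∃ u v : ℤ, (l : ℤ) ∣ u + v * a ∧ u ^ 2 + t * u * v + v ^ 2 = l := by
  obtain ⟨u, v, hd, hne, hu, hv⟩ := exists_small_congr hl a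
  refine ⟨u, v, hd, ?_⟩
  set Q := u ^ 2 + t * u * v + v ^ 2 with hQ
  have hdQ : (l : ℤ) ∣ Q := by
    have e : Q = (u + v * a) * (u + v * (t - a)) - v ^ 2 * (a * (t - a) - 1) := by rw [hQ]; ring
    rw [e]
    exact dvd_sub (hd.mul_right _) (ha.mul_left _)
  have hpos : 0 < Q := by
    rcases ht with rfl | rfl <;> rcases not_and_or.mp hne with h | h <;>
      have := mul_self_pos.mpr h <;>
      nlinarith [sq_nonneg (u + v), sq_nonneg (u - v)]
  have hlt : Q < 3 * l := by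
    rcases ht with rfl | rfl <;> nlinarith [sq_nonneg (u + v), sq_nonneg (u - v)]
  obtain ⟨m, hm⟩ := hdQ
  have hl0 : (0 : ℤ) < l := by exact_mod_cast hl.pos
  have hm0 : 0 < m := pos_of_mul_pos_right (hm ▸ hpos) hl0.le
  have hm3 : m < 3 := lt_of_mul_lt_mul_left (by rw [← hm, mul_comm]; exact hlt) hl0.le
  obtain rfl | rfl : m = 1 ∨ m = 2 := by omega
  · rwa [mul_one] at hm
  exfalso
  have hkey : ∀ x y s : ZMod 2, s = 1 → x ^ 2 + s * x * y + y ^ 2 = 0 → x = 0 ∧ y = 0 := by decide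
  have hs : (t : ZMod 2) = 1 := by rcases ht with rfl | rfl <;> decide
  have hQ2 : (u : ZMod 2) ^ 2 + (t : ZMod 2) * u * v + (v : ZMod 2) ^ 2 = 0 := by
    have h : ((Q : ℤ) : ZMod 2) = 0 :=
      (ZMod.intCast_zmod_eq_zero_iff_dvd Q 2).mpr (hm ▸ dvd_mul_left _ _)
    rw [hQ] at h
    push_cast at h
    exact h
  obtain ⟨hu2, hv2⟩ := hkey _ _ _ hs hQ2
  obtain ⟨u', rfl⟩ := (ZMod.intCast_zmod_eq_zero_iff_dvd u 2).mp hu2
  obtain ⟨v', rfl⟩ := (ZMod.intCast_zmod_eq_zero_iff_dvd v 2).mp hv2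
  have h2l : 2 ∣ l := by
    have : (2 : ℤ) ∣ l := ⟨u' ^ 2 + t * u' * v' + v' ^ 2, by push_cast at hQ; linarith⟩
    exact_mod_cast this
  obtain rfl := ((Nat.prime_dvd_prime_iff_eq Nat.prime_two hl).mp h2l).symm
  have h2 := (ZMod.intCast_zmod_eq_zero_iff_dvd _ 2).mpr ha
  push_cast at h2
  rw [hs] at h2
  have : ∀ x : ZMod 2, x * (1 - x) - 1 ≠ 0 := by decide
  exact this _ h2

open FermatAgent.ModCurve.Points FermatAgent.ModCurveTorsion
open FermatAgent.ModFun (jFun jBar)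
open FermatAgent.Periods (mob mob_mul diagRep det_diagRep)
open AlgebraicCurve (Place)
open ModularCurve (heckeAlphaBar heckeBetaBar)

local notation "M₂" => Matrix (Fin 2) (Fin 2) ℤ

variable {N l : ℕ} [NeZero N] [NeZero l] [NeZero (N * l)]

/-- Cayley-Hamilton for the cube of a matrix of determinant one. -/
theorem cube_of_det_one (g : M₂) (h : g.det = 1) :
    ∀ i k, (g ^ 3) i k =
      ((g 0 0 + g 1 1) ^ 2 - 1) * g i k - if i = k then g 0 0 + g 1 1 else 0 := by
  rw [Matrix.det_fin_two] at h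
  intro i k
  fin_cases i <;> fin_cases k <;> simp [pow_succ, Matrix.mul_apply, Fin.sum_univ_two]
  · linear_combination (-(2 * g 0 0 + g 1 1)) * h
  · linear_combination (-(g 0 1)) * h
  · linear_combination (-(g 1 0)) * h
  · linear_combination (-(g 0 0 + 2 * g 1 1)) * h

/-- A point over which `j` vanishes simply is fixed by an element of `Γ₀` of trace `±1`. -/
theorem exists_fix_trace {z : ℍ} {K : ℕ} [NeZero K] (hz : jFun z = 0)
    (h1 : (pointPlace K z).ord (jBar ℂ K) = 1) :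
    ∃ g ∈ Gamma0 K, g • z = z ∧
      ((g : M₂) 0 0 + (g : M₂) 1 1 = 1 ∨ (g : M₂) 0 0 + (g : M₂) 1 1 = -1) := by
  set D := localMonodromy z
  have hM : D.M = 3 := localMonodromy_M_eq_three hz
  set S := affineSheets K z
  have hJ : (pointPlace K z).ord S.J = S.ram (baseCoset K) := (S.coe_ram _).symm
  have e : S.J = jBar ℂ K := by
    show jSubC K (jFun z) = _
    rw [jSubC_eq, hz, map_zero, sub_zero]
  rw [e, h1] at hJ
  refine ⟨D.g, ?_, D.fix, ?_⟩
  · have h := (pow_mem_Gamma0_iff K z 1).mpr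
      (by show S.ram (baseCoset K) ∣ 1; rw [show S.ram (baseCoset K) = 1 by exact_mod_cast hJ.symm])
    rwa [pow_one] at h
  set g : M₂ := (D.g : M₂) with hg
  set t := g 0 0 + g 1 1 with ht
  have hdet : g 0 0 * g 1 1 - g 0 1 * g 1 0 = 1 := by
    rw [← Matrix.det_fin_two, hg, Matrix.SpecialLinearGroup.det_coe]
  have h3 : g ^ 3 = 1 ∨ g ^ 3 = -1 := by
    rcases D.pow_M with h | h <;> rw [hM] at h
    · exact Or.inl (by rw [hg, ← Matrix.SpecialLinearGroup.coe_pow, h]; rfl)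
    · exact Or.inr (by rw [hg, ← Matrix.SpecialLinearGroup.coe_pow, h]; simp)
  by_contra hne
  have hne1 := D.min 1 one_pos (by omega)
  rw [pow_one] at hne1
  have hsq : t ^ 2 - 1 ≠ 0 := fun h => by
    rcases mul_eq_zero.mp (show (t - 1) * (t + 1) = 0 by linear_combination h) with h' | h' <;>
      exact hne (by omega)
  obtain ⟨s, hs, hscal⟩ : ∃ s : ℤ, (s = 1 ∨ s = -1) ∧ ∀ i k,
      (t ^ 2 - 1) * g i k = if i = k then s + t else 0 := by
    rcases h3 with h | h <;> [refine ⟨1, Or.inl rfl, fun i k => ?_⟩;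
      refine ⟨-1, Or.inr rfl, fun i k => ?_⟩]
    all_goals
      have := congrFun (congrFun h i) k
      rw [cube_of_det_one g (by rw [Matrix.det_fin_two]; exact hdet), ← ht] at this
      fin_cases i <;> fin_cases k <;> simp_all <;> linear_combination this
  have h01 : g 0 1 = 0 := by simpa [hsq] using hscal 0 1
  have h10 : g 1 0 = 0 := by simpa [hsq] using hscal 1 0
  have h00 : g 0 0 = g 1 1 := mul_left_cancel₀ hsq (by simpa using (hscal 0 0).trans (hscal 1 1).symm)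
  rw [h01, zero_mul, sub_zero] at hdet
  rcases Int.eq_one_or_neg_one_of_mul_eq_one hdet with h | h
  · exact hne1.1 (Subtype.ext (Matrix.ext fun i k => by fin_cases i <;> fin_cases k <;>
      simp_all))
  · exact hne1.2 (Subtype.ext (Matrix.ext fun i k => by fin_cases i <;> fin_cases k <;>
      simp_all))

/-- The point `l z` is equivalent to `z` under `Γ₀(N)`. -/
theorem exists_dil_smul_eq (hl : l.Prime) {z : ℍ} {g : SL(2, ℤ)} (hg : g ∈ Gamma0 (N * l))
    (hfix : g • z = z)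
    (ht : (g : M₂) 0 0 + (g : M₂) 1 1 = 1 ∨ (g : M₂) 0 0 + (g : M₂) 1 1 = -1) :
    ∃ δ : Gamma0 N, mob (slMat δ) (mob (dilMat l) (z : ℂ)) = (z : ℂ) := by
  set m : M₂ := (g : M₂) with hm
  obtain ⟨c, hc⟩ := (ZMod.intCast_zmod_eq_zero_iff_dvd _ _).mp (Gamma0_mem.mp hg)
  replace hc : m 1 0 = (N * l : ℕ) * c := hc
  push_cast at hc
  have hdet : m 0 0 * m 1 1 - m 0 1 * m 1 0 = 1 := by
    rw [← Matrix.det_fin_two, hm, Matrix.SpecialLinearGroup.det_coe]
  obtain ⟨u, v, ⟨w, hw⟩, hnorm⟩ := exists_norm_eq (a := m 0 0) hl ht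
    ⟨m 0 1 * (N * c), by linear_combination hdet + m 0 1 * hc⟩
  let d : M₂ := !![w, v * m 0 1; v * (N * c), u + v * m 1 1]
  have hd : d * dilMat l = !![u + v * m 0 0, v * m 0 1; v * m 1 0, u + v * m 1 1] := by
    ext i k
    fin_cases i <;> fin_cases k <;>
      simp [d, dilMat, diagRep, Matrix.mul_apply, Fin.sum_univ_two, hw, hc] <;> ring
  have hl0 : (l : ℤ) ≠ 0 := Int.natCast_ne_zero.mpr hl.ne_zero
  have hdd : d.det = 1 := by
    refine mul_right_cancel₀ hl0 ?_
    have h := congrArg Matrix.det hd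
    rw [Matrix.det_mul, det_diagRep] at h
    rw [h, one_mul, Matrix.det_fin_two_of]
    linear_combination hnorm + v ^ 2 * hdet
  refine ⟨⟨⟨d, hdd⟩, Gamma0_mem.mpr (by
    show ((v * (N * c) : ℤ) : ZMod N) = 0
    simp)⟩, ?_⟩
  show mob d (mob (dilMat l) (z : ℂ)) = z
  rw [← mob_mul d (dilMat l) (det_dilMat_pos l).ne' z.im_pos, hd]
  have hne : (m 1 0 : ℂ) * z + (m 1 1 : ℂ) ≠ 0 :=
    Periods.mob_denom_ne_zero m (by rw [hm]; simp) z.im_pos
  have hz : mob m (z : ℂ) = z := by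
    rw [hm, mob_eq_moeb, moeb_coe, hfix]
  rw [mob, div_eq_iff hne] at hz
  have hGdet : (!![u + v * m 0 0, v * m 0 1; v * m 1 0, u + v * m 1 1] : M₂).det ≠ 0 := by
    rw [← hd, Matrix.det_mul, hdd, det_diagRep, one_mul]
    exact hl0
  have hG := Periods.mob_denom_ne_zero _ hGdet z.im_pos
  simp only [Matrix.cons_val', Matrix.cons_val_zero, Matrix.cons_val_one, Matrix.of_apply,
    Matrix.empty_val', Matrix.cons_val_fin_one] at hG
  rw [mob, div_eq_iff (by simpa using hG)]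
  simp
  linear_combination (v : ℂ) * hz

/-- **At an elliptic point of order three of `X₀(N l)` both degeneracy maps give the same
place.** -/
theorem ord_alpha_eq_beta (hl : l.Prime) {P : Place ℂ (FieldC (N * l))}
    (hP : P.ord (jBar ℂ (N * l)) = 1) (f : FieldC N) :
    P.ord (heckeAlphaBar ℂ N l f) = P.ord (heckeBetaBar ℂ N l f) := by
  rcases eq_or_ne f 0 with rfl | hf
  · rw [map_zero, map_zero]
  obtain ⟨z, hz, rfl⟩ := exists_pointPlace_of_ord_pos (N * l) (c := 0) (P := P)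
    (by rw [jSubC_eq, map_zero, sub_zero, hP]; exact one_pos)
  obtain ⟨g, hg, hfix, ht⟩ := exists_fix_trace hz hP
  obtain ⟨δ, hδ⟩ := exists_dil_smul_eq (N := N) hl hg hfix ht
  have h1 := meromorphicOrderAt_evalFun ((map_ne_zero (heckeAlphaBar ℂ N l)).mpr hf) z
  have h2 := meromorphicOrderAt_evalFun ((map_ne_zero (heckeBetaBar ℂ N l)).mpr hf) z
  rw [meromorphicOrderAt_congr (evalFun_heckeAlphaBar f _ z.im_pos)] at h1
  have hw : 0 < (mob (dilMat l) (z : ℂ)).im := mob_mem (det_dilMat_pos l) z.im_pos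
  rw [meromorphicOrderAt_congr (evalFun_heckeBetaBar f _ z.im_pos),
    meromorphicOrderAt_comp_mob _ (det_dilMat_pos l) z.im_pos,
    ← meromorphicOrderAt_congr (evalFun_invariant f δ _ hw),
    meromorphicOrderAt_comp_mob _ (det_slMat_pos δ) hw, hδ, h1] at h2
  have h3 : (0 : ℤ) < ellIndex (N * l) z := by exact_mod_cast ellIndex_pos (N * l) z
  exact mul_left_cancel₀ h3.ne' (WithTop.coe_injective h2)

end FermatAgent.MazurPrinciple.General

end
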