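import Fermat.Agent.MazurPrinciple.General.EllipticFixed
import Fermat.Agent.ModCurve.Torsion.BaseToComplex
import Fermat.Agent.Mazur.Step3.HeckeNorm
import Fermat.Agent.BadRed.Carayol.Instance.Tower

/-!
# Hecke correspondences at elliptic points of order three, modulo three

For a prime `l` not dividing the level the correspondence sends an elliptic point of order three
to `l + 1` times itself, modulo three.
-/

set_option autoImplicit false
set_option linter.style.haveILetI false

noncomputable section

open AlgebraicCurve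
open FermatAgent.ModCurve.Points FermatAgent.ModCurveTorsion
open FermatAgent.ModFun (jBar)
open FermatAgent.BadRed.Carayol.Instance (swapQ swapQ_comp_alpha degreeAlong_t)
open FermatAgent.Mazur.Step3 (heckeDiv)
open ModularCurve (modularFunctionFieldBar heckeAlphaBar heckeBetaBar)

namespace FermatAgent.MazurPrinciple.General

local notation "Qb" => AlgebraicClosure ℚ

attribute [local instance] qbarAlgebraC qbarAlgebraFieldC fieldBarAlgebraC qbar_isScalarTower_const
  qbar_isScalarTower_ext qbar_isConstantExtension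

/-- The orders of `j` over zero divide three. -/
theorem ord_jBar_C_dvd_three (K : ℕ) [NeZero K] {P : Place ℂ (FieldC K)}
    (hP : 0 < P.ord (jBar ℂ K)) : P.ord (jBar ℂ K) = 1 ∨ P.ord (jBar ℂ K) = 3 := by
  obtain ⟨z, hz, rfl⟩ := exists_pointPlace_of_ord_pos K (c := 0) (P := P)
    (by rwa [jSubC_eq, map_zero, sub_zero])
  have hJ : (pointPlace K z).ord (affineSheets K z).J = (affineSheets K z).ram (baseCoset K) :=
    ((affineSheets K z).coe_ram _).symm
  rw [show (affineSheets K z).J = jBar ℂ K by
    show jSubC K (ModFun.jFun z) = _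
    rw [jSubC_eq, hz, map_zero, sub_zero]] at hJ
  have h := ellIndex_mul_ram K z
  rw [localMonodromy_M_eq_three hz] at h
  rcases (Nat.dvd_prime Nat.prime_three).mp (Dvd.intro_left _ h) with h' | h' <;> rw [hJ, h'] <;>
    simp

variable {M l : ℕ} [NeZero M] [NeZero l]

/-- The orders of `j` over zero divide three, over `ℚ̄`. -/
theorem ord_jBar_dvd_three (K : ℕ) [NeZero K] {P : Place Qb (modularFunctionFieldBar K)}
    (hP : 0 < P.ord (jBar Qb K)) : P.ord (jBar Qb K) = 1 ∨ P.ord (jBar Qb K) = 3 := by
  haveI := ES.isFunctionField1_fieldBar K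
  haveI := qbar_isConstantExtension K
  have e := Curve.Descent.ord_extPlace (K' := ℂ) (F' := FieldC K) P (jBar Qb K)
  rw [algebraMap_jBar] at e
  rw [← e] at hP ⊢
  exact ord_jBar_C_dvd_three K hP

/-- The two degeneracy maps have the same orders at an elliptic point of order three. -/
theorem ord_alpha_eq_beta_bar [NeZero (M * l)] (hl : l.Prime)
    {w : Place Qb (modularFunctionFieldBar (M * l))} (hw : w.ord (jBar Qb (M * l)) = 1)
    (f : modularFunctionFieldBar M) :
    w.ord (heckeAlphaBar Qb M l f) = w.ord (heckeBetaBar Qb M l f) := by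
  haveI := ES.isFunctionField1_fieldBar (M * l)
  haveI := qbar_isConstantExtension (M * l)
  rw [← Curve.Descent.ord_extPlace (K' := ℂ) (F' := FieldC (M * l)) w,
    ← Curve.Descent.ord_extPlace (K' := ℂ) (F' := FieldC (M * l)) w,
    algebraMap_heckeAlphaBar M l, algebraMap_heckeBetaBar M l]
  refine ord_alpha_eq_beta hl ?_ _
  rw [← algebraMap_jBar, Curve.Descent.ord_extPlace, hw]

/-- Maps with the same orders at a place restrict it to the same place. -/
theorem restrictAlong_eq_of_ord_eq {K F F' : Type*} [Field K] [Field F] [Field F'] [Algebra K F]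
    [Algebra K F'] [IsAlgClosed K] [Curve.IsFunctionField1 K F] [Curve.IsFunctionField1 K F']
    (φ ψ : F →ₐ[K] F') (w : Place K F') (h : ∀ f, w.ord (φ f) = w.ord (ψ f)) :
    w.restrictAlong φ (Curve.isIntegralAlong φ) = w.restrictAlong ψ (Curve.isIntegralAlong ψ) := by
  have hφ : (0 : ℤ) < w.ramificationIndexAlong φ :=
    Int.natCast_pos.mpr (Curve.ramificationIndexAlong_pos φ w)
  have hψ : (0 : ℤ) < w.ramificationIndexAlong ψ :=
    Int.natCast_pos.mpr (Curve.ramificationIndexAlong_pos ψ w)
  refine Place.ext (SetLike.ext fun f => ?_)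
  rw [Curve.mem_iff_ord_nonneg', Curve.mem_iff_ord_nonneg', ← mul_nonneg_iff_of_pos_left hφ,
    ← w.ord_restrictAlong φ (Curve.isIntegralAlong φ), h,
    w.ord_restrictAlong ψ (Curve.isIntegralAlong ψ), mul_nonneg_iff_of_pos_left hψ]

/-- **An elliptic point of order three goes to `l + 1` times itself, modulo three.** -/
theorem three_dvd_heckeDiv_sub (hl : l.Prime) (hlM : ¬ l ∣ M)
    {P : Place Qb (modularFunctionFieldBar M)}
    (hP : 0 < P.ord (jBar Qb M)) (hP3 : ¬ (3 : ℤ) ∣ P.ord (jBar Qb M))
    (R : Place Qb (modularFunctionFieldBar M)) :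
    (3 : ℤ) ∣ heckeDiv M l (Finsupp.single P 1) R -
      ((l : ℤ) + 1) * Finsupp.single P (1 : ℤ) R := by
  classical
  haveI := Fact.mk hl
  haveI : NeZero (M * l) := ⟨mul_ne_zero (NeZero.ne M) (NeZero.ne l)⟩
  haveI := ES.isFunctionField1_fieldBar M
  haveI := ES.isFunctionField1_fieldBar (M * l)
  set α := heckeAlphaBar Qb M l
  set β := heckeBetaBar Qb M l
  have hdeg : ((l : ℤ) + 1) = ∑ w ∈ Place.fiberAlong β (Curve.isIntegralAlong β) P,
      (w.ramificationIndexAlong β : ℤ) := by
    rw [← Nat.cast_sum, Curve.sum_ramificationIndexAlong]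
    exact_mod_cast (degreeAlong_t Qb M hlM).symm
  show (3 : ℤ) ∣ Divisor.correspondence β α _ _ _ R - _
  rw [Divisor.correspondence_apply, Divisor.pullbackAlong_single, map_sum, Finsupp.finsetSum_apply,
    hdeg, Finset.sum_mul, ← Finset.sum_sub_distrib]
  refine Finset.dvd_sum fun w hw => ?_
  rw [Place.mem_fiberAlong] at hw
  rw [Divisor.pushforwardAlong_single, Curve.inertiaDegAlong_eq_one, one_mul, Nat.cast_one,
    mul_one]
  have hco : l.Coprime M := hl.coprime_iff_not_dvd.mpr hlM
  have h := w.ord_restrictAlong β (Curve.isIntegralAlong β) (jBar Qb M)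
  rw [hw] at h
  have he := Curve.ramificationIndexAlong_pos β w
  have hpos : 0 < w.ord (β (jBar Qb M)) := by rw [h]; positivity
  have hαj : α (jBar Qb M) = jBar Qb (M * l) :=
    Subtype.ext (ModularCurve.coe_heckeAlphaBar M l _)
  have hβj : β (jBar Qb M) = swapQ Qb M hco (jBar Qb (M * l)) := by
    rw [← hαj]
    exact (AlgHom.congr_fun (swapQ_comp_alpha Qb M hco) _).symm
  set w' := Curve.placeEquiv (swapQ Qb M hco) w with hw'
  have hswap : ∀ x, w'.ord x = w.ord (swapQ Qb M hco x) := fun x =>
    Curve.ord_placeEquiv (swapQ Qb M hco) w x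
  rw [hβj, ← hswap] at hpos h
  rcases ord_jBar_dvd_three (M * l) hpos with h1 | h3
  · -- an elliptic point of the upper level
    have key : w.restrictAlong α (Curve.isIntegralAlong α) = P := by
      rw [← hw]
      refine restrictAlong_eq_of_ord_eq α β w fun f => ?_
      rw [← AlgHom.congr_fun (BadRed.Carayol.Instance.swapQ_comp_beta Qb M hco) f,
        ← AlgHom.congr_fun (swapQ_comp_alpha Qb M hco) f]
      show w.ord (swapQ Qb M hco (β f)) = w.ord (swapQ Qb M hco (α f))
      rw [← hswap, ← hswap]
      exact (ord_alpha_eq_beta_bar hl h1 f).symm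
    rw [key, Finsupp.single_apply, Finsupp.single_apply]
    split_ifs <;> simp
  · rw [h3] at h
    exact dvd_sub (by
      rw [Finsupp.single_apply]; split_ifs
      · exact ((Int.prime_three.dvd_mul).mp ⟨1, h.symm⟩).resolve_right hP3
      · exact dvd_zero _)
      ((((Int.prime_three.dvd_mul).mp ⟨1, h.symm⟩).resolve_right hP3).mul_right _)

end FermatAgent.MazurPrinciple.General

end
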