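import Fermat.Agent.MazurPrinciple.General.Descent
import Fermat.Agent.MazurPrinciple.PThree.Pullback
import Fermat.Agent.MazurPrinciple.BaseInst
import Fermat.Agent.RT.Frobenius

/-!
# Mazur's principle at every level

If `E[p]` is irreducible and flat at `p`, residual modularity at a level divisible exactly once by
`p` gives it at the level without `p`.
-/

set_option autoImplicit false
set_option maxHeartbeats 800000

noncomputable section

open WeierstrassCurve
open FermatAgent.BadRed.Semistable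

namespace FermatAgent.MazurPrinciple.General

local notation "Qb" => AlgebraicClosure ℚ

/-- Mazur's principle at three for odd level, for an irreducible `E[3]`. -/
theorem hasCongruentForm_three [h3 : Fact (Nat.Prime 3)] (W : WeierstrassCurve ℤ)
    (hΔ : (W.map (Int.castRingHom ℚ)).Δ ≠ 0) (hirr : W.ModRepIsIrreducible 3) {S : Set ℕ}
    (hS : S.Finite) (hgood : ∀ l, l.Prime → l ∉ S → W.IsGoodPrimeFor l) {N : ℕ} [NeZero N]
    (hN : (3 : ℕ).Coprime N) (hMS : ∀ q : ℕ, q.Prime → q ∣ 3 * N → q ∈ S) (h2 : ¬ 2 ∣ N)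
    {A : ValuationSubring Qb} (hA : A.LiesOverPrime 3) (hbase : HasBase (p := 3) W hΔ A)
    (hcong : HasCongruentForm W.apOfModel 3 (3 * N) S) :
    HasCongruentForm W.apOfModel 3 N S := by
  have : NeZero (3 * N) := ⟨mul_ne_zero three_ne_zero (NeZero.ne N)⟩
  have : NeZero (4 * N) := ⟨mul_ne_zero four_ne_zero (NeZero.ne N)⟩
  have : NeZero (3 * (4 * N)) := ⟨mul_ne_zero three_ne_zero (NeZero.ne _)⟩
  have hM : (3 : ℕ).Coprime (4 * N) := Nat.Coprime.mul_right (by norm_num) hN
  have := charP_residue_place 3 A hA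
  have := isFunctionField1_fib 3 A hA hM
  have := isFunctionField1_fib 3 A hA hN
  obtain ⟨l, hl, hlS, -, -, -, hal⟩ := Ihara.exists_ne_succ W hΔ (by decide) hirr
    (hS.union (Set.finite_Iic N)) one_pos
  simp only [Set.mem_union, Set.mem_Iic, not_or, not_le] at hlS
  have : NeZero l := ⟨hl.ne_zero⟩
  have hlN : ¬ l ∣ N := fun h => hlS.2.not_ge (Nat.le_of_dvd (NeZero.pos N) h)
  have hal' : ¬ (3 : ℤ) ∣ W.apOfModel l - ((l : ℤ) + 1) := fun h => hal (by
    have h' := (ZMod.intCast_zmod_eq_zero_iff_dvd _ 3).mpr h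
    push_cast at h'
    linear_combination h')
  exact hasCongruentForm_of_descends W hΔ hirr (by decide) hS hgood hN hMS hA hbase
    hcong (dvd_mul_left N 4) (dvd_mul_right 4 N) hM
    (descends_three hA (dvd_mul_left N 4) hN hM (dvd_mul_right 4 N) hl hlN hlS.1 hal')
    (PThree.pullbackInjective h2)

variable {p : ℕ} [hp : Fact p.Prime]

/-- Mazur's principle for every odd `p`. -/
theorem hasCongruentForm (W : WeierstrassCurve ℤ) (hΔ : (W.map (Int.castRingHom ℚ)).Δ ≠ 0)
    (hirr : W.ModRepIsIrreducible p) (hp2 : p ≠ 2) {S : Set ℕ} (hS : S.Finite)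
    (hgood : ∀ l, l.Prime → l ∉ S → W.IsGoodPrimeFor l) {N : ℕ} [NeZero N]
    (hN : p.Coprime N) (hMS : ∀ q : ℕ, q.Prime → q ∣ p * N → q ∈ S)
    {A : ValuationSubring Qb} (hA : A.LiesOverPrime p) (hbase : HasBase (p := p) W hΔ A)
    (hcong : HasCongruentForm W.apOfModel p (p * N) S) :
    HasCongruentForm W.apOfModel p N S := by
  by_cases h4 : 5 ≤ p ∨ 2 ∣ N
  · exact hasCongruentForm_of_hasBase W hΔ hirr hp2 hS hgood hN hMS h4 hA hbase hcong
  push Not at h4
  obtain rfl : p = 3 := by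
    have h1 := hp.out.two_le
    by_contra h3
    obtain rfl : p = 4 := by omega
    exact absurd hp.out (by norm_num)
  exact hasCongruentForm_three W hΔ hirr hS hgood hN hMS h4.2 hA hbase hcong

/-- The points of order `p` give a local base when `E[p]` is flat at `p`. -/
theorem hasBase_of_flat (W : WeierstrassCurve ℤ) (hΔ : (W.map (Int.castRingHom ℚ)).Δ ≠ 0)
    (hp2 : p ≠ 2) (hsemi : (p : ℤ) ∣ W.Δ → ¬ (p : ℤ) ∣ W.c₄)
    (hfin : (W.map (Int.castRingHom ℚ)).IsPeuRamifieeAt p p) (hirr : W.ModRepIsIrreducible p)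
    {A : ValuationSubring Qb} (hA : A.LiesOverPrime p) : HasBase (p := p) W hΔ A :=
  ⟨LocalBase.ofTorsion hΔ hA, fun _ ha => LocalBase.inertia_mem_ofTorsion hΔ hA ha,
    LocalBase.ofTorsion_hpeu hΔ hA hp2 hirr hsemi hfin,
    fun _ hx => LocalBase.root_mem_ofTorsion hΔ hA hx,
    fun _ hσ _ hx => LocalBase.map_mem_ofTorsion hΔ hA hσ hx,
    fun _ hσ => torMat_eq_one_of_fixing_ofTorsion hΔ hA hσ⟩

omit hp in
/-- A good prime is peu ramifié. -/
theorem isPeuRamifieeAt_of_isGoodPrimeFor {W : WeierstrassCurve ℤ} {q : ℕ}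
    (h : W.IsGoodPrimeFor q) : (W.map (Int.castRingHom ℚ)).IsPeuRamifieeAt p q := by
  show (p : ℤ) ∣ padicValRat q (W.map (Int.castRingHom ℚ)).Δ
  rw [WeierstrassCurve.map_Δ, eq_intCast, padicValRat.of_int, padicValInt.eq_zero_of_not_dvd h]
  exact dvd_zero _

/-- **Residual modularity without `p` in the level.** -/
theorem residuallyModular_div (W : WeierstrassCurve ℤ) (hW : W.Δ ≠ 0) (hp2 : p ≠ 2)
    (hsemi : (p : ℤ) ∣ W.Δ → ¬ (p : ℤ) ∣ W.c₄) (hirr : W.ModRepIsIrreducible p)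
    (hfin : (W.map (Int.castRingHom ℚ)).IsPeuRamifieeAt p p) {M : ℕ} (hM : 0 < M) (hpM : p ∣ M)
    (hp2M : ¬ p ^ 2 ∣ M) (hres : W.IsResiduallyModularOfLevel p M) :
    W.IsResiduallyModularOfLevel p (M / p) := by
  have hΔ : (W.map (Int.castRingHom ℚ)).Δ ≠ 0 := by
    rw [WeierstrassCurve.map_Δ, eq_intCast, Int.cast_ne_zero]
    exact hW
  obtain ⟨A, hA⟩ := RT.exists_liesOverPrime hp.out
  have hbase := hasBase_of_flat W hΔ hp2 hsemi hfin hirr hA
  exact residuallyModular_div_of_lowering W hΔ hM.ne' hp2M hpM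
    (fun N _ S _ hN hS hgood hMS hcong =>
      hasCongruentForm W hΔ hirr hp2 hS hgood hN hMS hA hbase hcong) hres

end FermatAgent.MazurPrinciple.General

end
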